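/-
Cluster E' (Mazur), seat DESC-COMM (helper84).
Part 3 (abstract): base change for divisors in a cartesian square of function fields
```
      L₁ --b'--> M
      ^          ^
      a          a'
      E  --b-->  L₂
```
  `b^* ∘ a_* = a'_* ∘ b'^*`   as maps `Div L₁ → Div L₂`.
Proof: both sides agree on principal divisors (base change of the norm); the difference is
"local over `E`", and weak approximation in `L₁` separates the places over a place of `E`.
-/
import Mathlib
import Fermat.Agent.E.Desc.Comm.Functorial
import Fermat.Agent.E.Desc.Comm.NormBC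

set_option autoImplicit false
set_option linter.unusedSectionVars false
set_option linter.unusedVariables false
set_option linter.style.haveILetI false

noncomputable section

open AlgebraicCurve

namespace Fermat.Agent.EDescComm

section General

variable {K F F' : Type*} [Field K] [Field F] [Field F'] [Algebra K F] [Algebra K F']

/-- a push-forward vanishes at a place which is not below the support. -/
theorem pushforwardAlong_apply_eq_zero (φ : F →ₐ[K] F') (hφ : φ.toRingHom.IsIntegral)
    (D : Divisor K F') (v : Place K F)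
    (h : ∀ w ∈ D.support, w.restrictAlong φ hφ ≠ v) :
    Divisor.pushforwardAlong φ hφ D v = 0 := by
  classical
  letI := algebraAlong φ
  haveI := isScalarTower_along φ
  haveI := isIntegral_along φ hφ
  show Divisor.pushforward F D v = 0
  rw [Divisor.pushforward_apply]
  refine Finset.sum_eq_zero fun w hw => ?_
  rw [if_neg]
  exact h w hw

/-- the support of a pull-back lies over the support. -/
theorem restrictAlong_mem_support_of_mem_support_pullbackAlong [HasPrincipalDivisors K F']
    (φ : F →ₐ[K] F') (hφ : φ.toRingHom.IsIntegral) {D : Divisor K F} {w : Place K F'}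
    (hw : w ∈ (Divisor.pullbackAlong φ hφ D).support) :
    w.restrictAlong φ hφ ∈ D.support := by
  rw [Finsupp.mem_support_iff] at hw ⊢
  intro h0
  apply hw
  rw [Divisor.pullbackAlong_apply, h0, mul_zero]

/-- the norm formula, along `φ`. -/
theorem pushforwardAlong_apply_eq_ord_normAlg (φ : F →ₐ[K] F') (hφ : φ.toRingHom.IsIntegral)
    (hfin : FiniteAlong K φ) (hN : NormFormulaAlong K φ hfin) {f : F'} (hf : f ≠ 0)
    {D : Divisor K F'} (hD : ∀ w : Place K F', D w = w.ord f) (v : Place K F) :
    Divisor.pushforwardAlong φ hφ D v = v.ord (normAlg φ f) := by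
  letI := algebraAlong φ
  haveI := isScalarTower_along φ
  haveI := isIntegral_along φ hφ
  haveI : Module.Finite F F' := hfin
  exact hN f hf D hD v

/-- an additive map between divisor groups is determined by its values on the places. -/
theorem addMonoidHom_apply_eq_sum {α β : Type*} (Φ : (α →₀ ℤ) →+ (β →₀ ℤ)) (D : α →₀ ℤ)
    (q : β) : Φ D q = ∑ p ∈ D.support, D p * Φ (Finsupp.single p 1) q := by
  classical
  induction D using Finsupp.induction_linear with
  | zero => simp
  | add D₁ D₂ h₁ h₂ =>
    rw [map_add, Finsupp.add_apply, h₁, h₂]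
    have e₁ : ∑ p ∈ D₁.support, D₁ p * Φ (Finsupp.single p 1) q
        = ∑ p ∈ D₁.support ∪ D₂.support, D₁ p * Φ (Finsupp.single p 1) q := by
      refine Finset.sum_subset Finset.subset_union_left fun p _ hp => ?_
      rw [Finsupp.notMem_support_iff.mp hp, zero_mul]
    have e₂ : ∑ p ∈ D₂.support, D₂ p * Φ (Finsupp.single p 1) q
        = ∑ p ∈ D₁.support ∪ D₂.support, D₂ p * Φ (Finsupp.single p 1) q := by
      refine Finset.sum_subset Finset.subset_union_right fun p _ hp => ?_
      rw [Finsupp.notMem_support_iff.mp hp, zero_mul]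
    have e₃ : ∑ p ∈ (D₁ + D₂).support, (D₁ + D₂) p * Φ (Finsupp.single p 1) q
        = ∑ p ∈ D₁.support ∪ D₂.support, (D₁ + D₂) p * Φ (Finsupp.single p 1) q := by
      refine Finset.sum_subset Finsupp.support_add fun p _ hp => ?_
      rw [Finsupp.notMem_support_iff.mp hp, zero_mul]
    rw [e₁, e₂, e₃, ← Finset.sum_add_distrib]
    refine Finset.sum_congr rfl fun p _ => ?_
    rw [Finsupp.add_apply, add_mul]
  | single p n =>
    have h1 : Finsupp.single p n = n • Finsupp.single p (1 : ℤ) := by
      rw [Finsupp.smul_single, smul_eq_mul, mul_one]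
    by_cases hn : n = 0
    · subst hn
      simp
    · rw [Finsupp.support_single _ hn, Finset.sum_singleton, Finsupp.single_eq_same]
      conv_lhs => rw [h1, map_zsmul, Finsupp.smul_apply, smul_eq_mul]

end General

variable {K E L₁ L₂ M : Type*} [Field K] [Field E] [Field L₁] [Field L₂] [Field M]
  [Algebra K E] [Algebra K L₁] [Algebra K L₂] [Algebra K M]
  [HasPrincipalDivisors K L₁] [HasPrincipalDivisors K L₂] [HasPrincipalDivisors K M]

/-- weak approximation at one place, relative to a finite set of places. -/
def WeakApprox (K F : Type*) [Field K] [Field F] [Algebra K F] : Prop :=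
  ∀ (P : Place K F) (U : Finset (Place K F)),
    ∃ g : F, g ≠ 0 ∧ P.ord g = 1 ∧ ∀ P' ∈ U, P' ≠ P → P'.ord g = 0

variable (a : E →ₐ[K] L₁) (b : E →ₐ[K] L₂) (a' : L₂ →ₐ[K] M) (b' : L₁ →ₐ[K] M)
  (ha : a.toRingHom.IsIntegral) (hb : b.toRingHom.IsIntegral)
  (ha' : a'.toRingHom.IsIntegral) (hb' : b'.toRingHom.IsIntegral)

/-- the defect of base change. -/
def bcDefect : Divisor K L₁ →+ Divisor K L₂ :=
  (Divisor.pullbackAlong b hb).comp (Divisor.pushforwardAlong a ha) -
    (Divisor.pushforwardAlong a' ha').comp (Divisor.pullbackAlong b' hb')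

theorem bcDefect_apply (D : Divisor K L₁) :
    bcDefect a b a' b' ha hb ha' hb' D =
      Divisor.pullbackAlong b hb (Divisor.pushforwardAlong a ha D) -
        Divisor.pushforwardAlong a' ha' (Divisor.pullbackAlong b' hb' D) := rfl

variable {a b a' b'}

/-- the defect vanishes on principal divisors. -/
theorem bcDefect_principal (hsq : IsBCSquare a b a' b')
    (hNa : NormFormulaAlong K a hsq.finite)
    (hfin' : FiniteAlong K a') (hNa' : NormFormulaAlong K a' hfin')
    {g : L₁} (hg : g ≠ 0) {D : Divisor K L₁} (hD : ∀ w : Place K L₁, D w = w.ord g) :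
    bcDefect a b a' b' ha hb ha' hb' D = 0 := by
  ext Q
  rw [bcDefect_apply, Finsupp.sub_apply, Finsupp.zero_apply, sub_eq_zero,
    Divisor.pullbackAlong_apply,
    pushforwardAlong_apply_eq_ord_normAlg a ha hsq.finite hNa hg hD,
    ← Place.ord_restrictAlong b hb Q,
    pushforwardAlong_apply_eq_ord_normAlg a' ha' hfin' hNa' (f := b' g)
      (by simpa using hg) (D := Divisor.pullbackAlong b' hb' D)
      (fun w => by rw [Divisor.pullbackAlong_apply, hD, ← Place.ord_restrictAlong]),
    hsq.norm_eq g]

/-- the defect is local over `E`. -/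
theorem bcDefect_single_apply_of_ne (hsq : IsBCSquare a b a' b')
    (hE : ∀ v : Place K E, v.deg = 1) (hL₁ : ∀ v : Place K L₁, v.deg = 1)
    (P : Place K L₁) (n : ℤ) (Q : Place K L₂)
    (hne : P.restrictAlong a ha ≠ Q.restrictAlong b hb) :
    bcDefect a b a' b' ha hb ha' hb' (Finsupp.single P n) Q = 0 := by
  rw [bcDefect_apply, Finsupp.sub_apply]
  have h1 : Divisor.pullbackAlong b hb (Divisor.pushforwardAlong a ha (Finsupp.single P n)) Q
      = 0 := by
    rw [Divisor.pullbackAlong_apply, pushforwardAlong_single_of_deg_one a ha hE hL₁,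
      Finsupp.single_eq_of_ne (fun h => hne h.symm), mul_zero]
  have h2 : Divisor.pushforwardAlong a' ha'
      (Divisor.pullbackAlong b' hb' (Finsupp.single P n)) Q = 0 := by
    apply pushforwardAlong_apply_eq_zero
    intro R hR hRQ
    have hRP := restrictAlong_mem_support_of_mem_support_pullbackAlong b' hb' hR
    have hRP' : R.restrictAlong b' hb' = P := by
      by_contra hcon
      rw [Finsupp.mem_support_iff, Finsupp.single_eq_of_ne hcon] at hRP
      exact hRP rfl
    apply hne
    have hint : (a'.comp b).toRingHom.IsIntegral := isIntegral_comp b a' hb ha'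
    have hint' : (b'.comp a).toRingHom.IsIntegral := isIntegral_comp a b' ha hb'
    rw [← hRP', ← hRQ, ← restrictAlong_comp a b' ha hb' hint' R,
      ← restrictAlong_comp b a' hb ha' hint R]
    exact (restrictAlong_eq_of_eq hsq.comm hint hint' R).symm
  rw [h1, h2, sub_zero]

/-- **Base change for divisors**: `b^* ∘ a_* = a'_* ∘ b'^*`. -/
theorem bcDefect_eq_zero (hsq : IsBCSquare a b a' b')
    (hNa : NormFormulaAlong K a hsq.finite)
    (hfin' : FiniteAlong K a') (hNa' : NormFormulaAlong K a' hfin')
    (hE : ∀ v : Place K E, v.deg = 1) (hL₁ : ∀ v : Place K L₁, v.deg = 1)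
    (happ : WeakApprox K L₁) :
    bcDefect a b a' b' ha hb ha' hb' = 0 := by
  classical
  refine Finsupp.addHom_ext fun P n => ?_
  rw [AddMonoidHom.zero_apply]
  ext Q
  rw [Finsupp.zero_apply]
  by_cases hPQ : P.restrictAlong a ha = Q.restrictAlong b hb
  · -- the interesting case
    have hkey : bcDefect a b a' b' ha hb ha' hb' (Finsupp.single P 1) Q = 0 := by
      obtain ⟨g, hg0, hgP, hgU⟩ := happ P (Place.fiberAlong a ha (P.restrictAlong a ha))
      obtain ⟨D, hD, -⟩ := HasPrincipalDivisors.exists_divisor (K := K) g hg0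
      have h0 := bcDefect_principal ha hb ha' hb' hsq hNa hfin' hNa' hg0 hD
      have h1 := addMonoidHom_apply_eq_sum (bcDefect a b a' b' ha hb ha' hb') D Q
      rw [h0, Finsupp.zero_apply] at h1
      have hPsupp : P ∈ D.support := by
        rw [Finsupp.mem_support_iff, hD, hgP]
        exact one_ne_zero
      rw [Finset.sum_eq_single P, hD, hgP, one_mul] at h1
      · exact h1.symm
      · intro P' _ hP'
        by_cases hfib : P' ∈ Place.fiberAlong a ha (P.restrictAlong a ha)
        · rw [hD, hgU P' hfib hP', zero_mul]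
        · rw [Place.mem_fiberAlong] at hfib
          rw [bcDefect_single_apply_of_ne ha hb ha' hb' hsq hE hL₁ P' 1 Q
            (fun h => hfib (h.trans hPQ.symm)), mul_zero]
      · intro h
        exact absurd hPsupp h
    have h2 := addMonoidHom_apply_eq_sum (bcDefect a b a' b' ha hb ha' hb')
      (Finsupp.single P n) Q
    rw [h2]
    refine Finset.sum_eq_zero fun P' hP' => ?_
    have hP'P : P' = P := by
      by_contra hcon
      rw [Finsupp.mem_support_iff, Finsupp.single_eq_of_ne hcon] at hP'
      exact hP' rfl
    rw [hP'P, hkey, mul_zero]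
  · exact bcDefect_single_apply_of_ne ha hb ha' hb' hsq hE hL₁ P n Q hPQ

/-- **Base change for divisors**, applied form. -/
theorem pullbackAlong_pushforwardAlong (hsq : IsBCSquare a b a' b')
    (hNa : NormFormulaAlong K a hsq.finite)
    (hfin' : FiniteAlong K a') (hNa' : NormFormulaAlong K a' hfin')
    (hE : ∀ v : Place K E, v.deg = 1) (hL₁ : ∀ v : Place K L₁, v.deg = 1)
    (happ : WeakApprox K L₁) (D : Divisor K L₁) :
    Divisor.pullbackAlong b hb (Divisor.pushforwardAlong a ha D) =
      Divisor.pushforwardAlong a' ha' (Divisor.pullbackAlong b' hb' D) := by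
  have h := congrArg (fun Φ : Divisor K L₁ →+ Divisor K L₂ => Φ D)
    (bcDefect_eq_zero ha hb ha' hb' hsq hNa hfin' hNa' hE hL₁ happ)
  simp only [bcDefect_apply, AddMonoidHom.zero_apply] at h
  exact sub_eq_zero.mp h

end Fermat.Agent.EDescComm
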