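/-
Cluster E' (Mazur), seat DESC-COMM (helper84).
Part 4 (abstract): two correspondences `T_r = (α_r)_* (β_r)^*`, `T_s = (α_s)_* (β_s)^*` on a function
field `E` commute if there is a common top field `M` with two cartesian squares
```
   L_s --B_r--> M <--B_s-- L_r          L_s --A_r--> M <--A_s-- L_r
    ^           ^           ^     and    ^                       ^
   α_s         A_s ... (square 1: a = α_s, b = β_r, a' = A_s, b' = B_r)
                       (square 2: a = α_r, b = β_s, a' = A_r, b' = B_s)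
```
and `A_s ∘ α_r = A_r ∘ α_s`, `B_r ∘ β_s = B_s ∘ β_r`.
Then `T_r T_s = (A_s α_r)_* (B_r β_s)^* = (A_r α_s)_* (B_s β_r)^* = T_s T_r`.
-/
import Mathlib
import Fermat.Agent.E.Desc.Comm.DivBC

set_option autoImplicit false
set_option linter.unusedSectionVars false
set_option linter.unusedVariables false
set_option linter.style.haveILetI false

noncomputable section

open AlgebraicCurve

namespace Fermat.Agent.EDescComm

variable {K E Lr Ls M : Type*} [Field K] [Field E] [Field Lr] [Field Ls] [Field M]
  [Algebra K E] [Algebra K Lr] [Algebra K Ls] [Algebra K M]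
  [HasPrincipalDivisors K Lr] [HasPrincipalDivisors K Ls] [HasPrincipalDivisors K M]

/-- the data making two correspondences commute. -/
structure CommData (αr βr : E →ₐ[K] Lr) (αs βs : E →ₐ[K] Ls) (As Bs : Lr →ₐ[K] M)
    (Ar Br : Ls →ₐ[K] M) : Prop where
  sq₁ : IsBCSquare αs βr As Br
  sq₂ : IsBCSquare αr βs Ar Bs
  incl : As.comp αr = Ar.comp αs
  scale : Br.comp βs = Bs.comp βr
  finAs : FiniteAlong K As
  finAr : FiniteAlong K Ar
  normαs : NormFormulaAlong K αs sq₁.finite
  normαr : NormFormulaAlong K αr sq₂.finite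
  normAs : NormFormulaAlong K As finAs
  normAr : NormFormulaAlong K Ar finAr
  degE : ∀ v : Place K E, v.deg = 1
  degLr : ∀ v : Place K Lr, v.deg = 1
  degLs : ∀ v : Place K Ls, v.deg = 1
  degM : ∀ v : Place K M, v.deg = 1
  approxLr : WeakApprox K Lr
  approxLs : WeakApprox K Ls

variable {αr βr : E →ₐ[K] Lr} {αs βs : E →ₐ[K] Ls} {As Bs : Lr →ₐ[K] M} {Ar Br : Ls →ₐ[K] M}

/-- **Commutation of correspondences**, on divisors. -/
theorem CommData.correspondence_comm (h : CommData αr βr αs βs As Bs Ar Br)
    (hαr : αr.toRingHom.IsIntegral) (hβr : βr.toRingHom.IsIntegral)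
    (hαs : αs.toRingHom.IsIntegral) (hβs : βs.toRingHom.IsIntegral)
    (hAs : As.toRingHom.IsIntegral) (hBs : Bs.toRingHom.IsIntegral)
    (hAr : Ar.toRingHom.IsIntegral) (hBr : Br.toRingHom.IsIntegral)
    (D : Divisor K E) :
    Divisor.correspondence βr αr hβr hαr (Divisor.correspondence βs αs hβs hαs D) =
      Divisor.correspondence βs αs hβs hαs (Divisor.correspondence βr αr hβr hαr D) := by
  simp only [Divisor.correspondence_apply]
  -- left hand side
  have hL : Divisor.pushforwardAlong αr hαr (Divisor.pullbackAlong βr hβr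
      (Divisor.pushforwardAlong αs hαs (Divisor.pullbackAlong βs hβs D)))
      = Divisor.pushforwardAlong (As.comp αr) (isIntegral_comp αr As hαr hAs)
          (Divisor.pullbackAlong (Br.comp βs) (isIntegral_comp βs Br hβs hBr) D) := by
    rw [pullbackAlong_pushforwardAlong hαs hβr hAs hBr h.sq₁ h.normαs h.finAs h.normAs
        h.degE h.degLs h.approxLs,
      pushforwardAlong_comp αr As hαr hAs (isIntegral_comp αr As hαr hAs) h.degE h.degLr h.degM,
      pullbackAlong_comp βs Br hβs hBr (isIntegral_comp βs Br hβs hBr)]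
  have hR : Divisor.pushforwardAlong αs hαs (Divisor.pullbackAlong βs hβs
      (Divisor.pushforwardAlong αr hαr (Divisor.pullbackAlong βr hβr D)))
      = Divisor.pushforwardAlong (Ar.comp αs) (isIntegral_comp αs Ar hαs hAr)
          (Divisor.pullbackAlong (Bs.comp βr) (isIntegral_comp βr Bs hβr hBs) D) := by
    rw [pullbackAlong_pushforwardAlong hαr hβs hAr hBs h.sq₂ h.normαr h.finAr h.normAr
        h.degE h.degLr h.approxLr,
      pushforwardAlong_comp αs Ar hαs hAr (isIntegral_comp αs Ar hαs hAr) h.degE h.degLs h.degM,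
      pullbackAlong_comp βr Bs hβr hBs (isIntegral_comp βr Bs hβr hBs)]
  rw [hL, hR, pushforwardAlong_eq_of_eq h.incl _ (isIntegral_comp αs Ar hαs hAr),
    pullbackAlong_eq_of_eq h.scale _ (isIntegral_comp βr Bs hβr hBs)]

/-- **Commutation of correspondences**, on `Pic⁰`. -/
theorem CommData.pic0_correspondence_comm (h : CommData αr βr αs βs As Bs Ar Br)
    (hαr : αr.toRingHom.IsIntegral) (hβr : βr.toRingHom.IsIntegral)
    (hαs : αs.toRingHom.IsIntegral) (hβs : βs.toRingHom.IsIntegral)
    (hAs : As.toRingHom.IsIntegral) (hBs : Bs.toRingHom.IsIntegral)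
    (hAr : Ar.toRingHom.IsIntegral) (hBr : Br.toRingHom.IsIntegral)
    (hFIr : FundamentalIdentityAlong K βr hβr) (hfinr : FiniteAlong K αr)
    (hNr : NormFormulaAlong K αr hfinr)
    (hFIs : FundamentalIdentityAlong K βs hβs) (hfins : FiniteAlong K αs)
    (hNs : NormFormulaAlong K αs hfins) (x : Pic0 K E) :
    Pic0.correspondence βr αr hβr hαr hFIr hfinr hNr
        (Pic0.correspondence βs αs hβs hαs hFIs hfins hNs x) =
      Pic0.correspondence βs αs hβs hαs hFIs hfins hNs
        (Pic0.correspondence βr αr hβr hαr hFIr hfinr hNr x) := by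
  obtain ⟨D, rfl⟩ := Pic0.mk_surjective x
  rw [Pic0.correspondence_mk, Pic0.correspondence_mk, Pic0.correspondence_mk,
    Pic0.correspondence_mk]
  congr 1
  apply Subtype.ext
  rw [Pic0.coe_degZeroCorrespondence, Pic0.coe_degZeroCorrespondence,
    Pic0.coe_degZeroCorrespondence, Pic0.coe_degZeroCorrespondence]
  exact h.correspondence_comm hαr hβr hαs hβs hAs hBs hAr hBr D

end Fermat.Agent.EDescComm
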