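/-
Cluster E' (Mazur), seat DESC-COMM (helper84).
Part 5 (modular): the degeneracy maps between the function fields of `X₀(A)` over `ℚ̄`,
weak approximation, and the formal inputs (finiteness, norm formula, ...) of the base change
squares.
-/
import Mathlib
import Fermat.Prelude.Def_ModularCurve_HeckeOperatorTotal
import Fermat.Agent.E.Desc.Comm.Abstract
import Fermat.Agent.Lib.BadRed.Nodal.Interp1
import Fermat.Agent.Lib.RR.OfModularBar
import Fermat.Agent.Lib.HeckeInputs.Modular

set_option autoImplicit false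
set_option linter.unusedSectionVars false
set_option linter.unusedVariables false
set_option linter.style.haveILetI false

noncomputable section

open AlgebraicCurve ModularCurve

namespace Fermat.Agent.EDescComm

local notation "Qb" => AlgebraicClosure ℚ

/-! ### weak approximation -/

section Approx

variable {K F : Type*} [Field K] [Field F] [Algebra K F]

open Fermat.Agent.RR in
/-- weak approximation from Riemann–Roch. -/
theorem weakApprox_of_isRRField (h : IsRRField K F) [Infinite K] : WeakApprox K F := by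
  classical
  intro P U
  set m : ℤ := 2 * (genusFF K F : ℤ) + 1 with hm
  have hd1 : 2 * (genusFF K F : ℤ) - 1 < Divisor.degree (Finsupp.single P m) := by
    rw [degree_single_one h]
    omega
  have hd2 : 2 * (genusFF K F : ℤ) - 1 < Divisor.degree (Finsupp.single P (m + 1)) := by
    rw [degree_single_one h]
    omega
  obtain ⟨f₁, -, hf₁, h₁⟩ :=
    Fermat.Agent.BadRed.Interp1.exists_exact_ord h (Finsupp.single P m) hd1 (insert P U)
  obtain ⟨f₂, -, hf₂, h₂⟩ :=
    Fermat.Agent.BadRed.Interp1.exists_exact_ord h (Finsupp.single P (m + 1)) hd2 (insert P U)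
  refine ⟨f₁ / f₂, div_ne_zero hf₁ hf₂, ?_, ?_⟩
  · rw [div_eq_mul_inv, P.ord_mul hf₁ (inv_ne_zero hf₂), P.ord_inv,
      h₁ P (Finset.mem_insert_self _ _), h₂ P (Finset.mem_insert_self _ _),
      Finsupp.single_eq_same, Finsupp.single_eq_same]
    ring
  · intro P' hP' hne
    rw [div_eq_mul_inv, P'.ord_mul hf₁ (inv_ne_zero hf₂), P'.ord_inv,
      h₁ P' (Finset.mem_insert_of_mem hP'), h₂ P' (Finset.mem_insert_of_mem hP'),
      Finsupp.single_eq_of_ne hne, Finsupp.single_eq_of_ne hne]
    ring

end Approx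

theorem weakApprox_bar (A : ℕ) [NeZero A] : WeakApprox Qb ↥(modularFunctionFieldBar A) :=
  weakApprox_of_isRRField (Fermat.Agent.RRMod.isRRField_bar A)

theorem deg_one_bar (A : ℕ) [NeZero A] (v : Place Qb ↥(modularFunctionFieldBar A)) :
    v.deg = 1 :=
  (Fermat.Agent.RRMod.isRRField_bar A).deg_one v

instance hasPrincipalDivisors_barI (A : ℕ) [NeZero A] :
    HasPrincipalDivisors Qb ↥(modularFunctionFieldBar A) :=
  Fermat.Agent.S24Diff.hasPrincipalDivisors (Fermat.Agent.S24.isFunctionFieldOver_jBar A)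

/-! ### formal inputs of a homomorphism between levels -/

section Inputs

variable {A B : ℕ} [NeZero A] [NeZero B]
  (φ : ↥(modularFunctionFieldBar A) →ₐ[Qb] ↥(modularFunctionFieldBar B))

theorem finiteAlong_bar : FiniteAlong Qb φ :=
  Fermat.Agent.HeckeInputs.hi_finiteAlong φ
    (Fermat.Agent.S24.isFunctionFieldOver_jBar A).transcendental
    (Fermat.Agent.S24.isFunctionFieldOver_jBar B)

theorem isIntegral_bar : φ.toRingHom.IsIntegral :=
  Fermat.Agent.HeckeInputs.hi_isIntegral_of_finiteAlong φ (finiteAlong_bar φ)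

theorem normFormulaAlong_bar (hfin : FiniteAlong Qb φ) : NormFormulaAlong Qb φ hfin :=
  Fermat.Agent.HeckeInputs.hi_normFormulaAlong φ hfin
    (Fermat.Agent.S24.isFunctionFieldOver_jBar A) (Fermat.Agent.S24.isFunctionFieldOver_jBar B)

theorem fundamentalIdentityAlong_bar (hφ : φ.toRingHom.IsIntegral) :
    FundamentalIdentityAlong Qb φ hφ :=
  Fermat.Agent.HeckeInputs.hi_fundamentalIdentityAlong φ hφ
    (Fermat.Agent.S24.isFunctionFieldOver_jBar A) (Fermat.Agent.S24.isFunctionFieldOver_jBar B)

end Inputs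

/-! ### the degeneracy maps -/

section Maps

variable {A B : ℕ} [NeZero A] [NeZero B]

theorem fbar_le_of_mul_eq (c : ℕ) [NeZero c] (h : A * c = B) :
    modularFunctionFieldBar A ≤ modularFunctionFieldBar B := by
  intro x hx
  have h1 := (heckeAlphaBar Qb A c ⟨x, hx⟩).2
  rw [coe_heckeAlphaBar, h] at h1
  exact h1

theorem qExpand_mem_of_mul_eq (d : ℕ) [NeZero d] (h : A * d = B)
    (x : ↥(modularFunctionFieldBar A)) :
    qExpand Qb d (x : LaurentSeries Qb) ∈ modularFunctionFieldBar B := by
  have h1 := (heckeBetaBar Qb A d x).2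
  rw [coe_heckeBetaBar, h] at h1
  exact h1

/-- the inclusion `F_A → F_B`, `B = A c`. -/
def inclF (c : ℕ) [NeZero c] (h : A * c = B) :
    ↥(modularFunctionFieldBar A) →ₐ[Qb] ↥(modularFunctionFieldBar B) :=
  IntermediateField.inclusion (fbar_le_of_mul_eq c h)

/-- the map `f(q) ↦ f(q^d)`, `F_A → F_B`, `B = A d`. -/
def scaleF (d : ℕ) [NeZero d] (h : A * d = B) :
    ↥(modularFunctionFieldBar A) →ₐ[Qb] ↥(modularFunctionFieldBar B) :=
  ((qExpandAlgHomC Qb d).comp (modularFunctionFieldBar A).val).codRestrict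
    (modularFunctionFieldBar B).toSubalgebra (fun x => qExpand_mem_of_mul_eq d h x)

theorem coe_inclF (c : ℕ) [NeZero c] (h : A * c = B) (x : ↥(modularFunctionFieldBar A)) :
    ((inclF c h x : ↥(modularFunctionFieldBar B)) : LaurentSeries Qb) = (x : LaurentSeries Qb) :=
  IntermediateField.coe_inclusion _ x

theorem coe_scaleF (d : ℕ) [NeZero d] (h : A * d = B) (x : ↥(modularFunctionFieldBar A)) :
    ((scaleF d h x : ↥(modularFunctionFieldBar B)) : LaurentSeries Qb) =
      qExpand Qb d (x : LaurentSeries Qb) := rfl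

theorem heckeAlphaBar_eq_inclF (N ℓ : ℕ) [NeZero N] [NeZero ℓ] :
    heckeAlphaBar Qb N ℓ = inclF ℓ rfl := by
  apply AlgHom.ext
  intro x
  apply Subtype.ext
  rw [coe_heckeAlphaBar, coe_inclF]

theorem heckeBetaBar_eq_scaleF (N ℓ : ℕ) [NeZero N] [NeZero ℓ] :
    heckeBetaBar Qb N ℓ = scaleF ℓ rfl := by
  apply AlgHom.ext
  intro x
  apply Subtype.ext
  rw [coe_heckeBetaBar, coe_scaleF]

end Maps

end Fermat.Agent.EDescComm
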