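/-
Cluster E' (Mazur), seat DESC-COMM (helper84).
Part 7 (modular): `F_M = ℚ̄(j, j_M)` (`j_M = j(q^M)`), and the spanning condition of the base
change squares: `F_B` is spanned over `F_A` by the image of `f(q) ↦ f(q^d)`, `F_C → F_B`
(`A ∣ B`, `B = C d`).
-/
import Mathlib
import Fermat.Agent.E.Desc.Comm.Degree

set_option autoImplicit false
set_option linter.unusedSectionVars false
set_option linter.unusedVariables false
set_option linter.style.haveILetI false
set_option synthInstance.maxHeartbeats 400000

noncomputable section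

open AlgebraicCurve ModularCurve Fermat.Agent.S24 Fermat.Agent.S24.EmbFHom
open scoped MatrixGroups

namespace Fermat.Agent.EDescComm

local notation "Qb" => AlgebraicClosure ℚ

/-- `j_M = j(q^M)` as a function on `X₀(M)`. -/
def jTop (M : ℕ) [NeZero M] : ↥(modularFunctionFieldBar M) :=
  ⟨coeffEmb Qb (qExpand ℚ M jq), coeffEmb_mem_laurentBaseChange Qb (jqd_mem_full M dvd_rfl)⟩

theorem coe_jTop (M : ℕ) [NeZero M] :
    ((jTop M : ↥(modularFunctionFieldBar M)) : LaurentSeries Qb) =
      coeffEmb Qb (qExpand ℚ M jq) := rfl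

theorem coeffEmb_qExpand_rat (n : ℕ) [NeZero n] (x : LaurentSeries ℚ) :
    coeffEmb Qb (qExpand ℚ n x) = qExpand Qb n (coeffEmb Qb x) := by
  unfold coeffEmb
  rw [coeffMap_qExpand]

theorem embHom_jTop (M : ℕ) [NeZero M] :
    embHom M M dvd_rfl (jTop M) = jdLL M M dvd_rfl := by
  apply expLL_injective M
  rw [expLL_embHom, expLL_jdLL, coe_jTop, ← qExpand_coeffEmb_jqd, qExpandAlgHomC_apply]

theorem smul_embHom_jTop_iff (M : ℕ) [NeZero M] (γ : SL(2, ℤ)) :
    γ • embHom M M dvd_rfl (jTop M) = embHom M M dvd_rfl (jTop M) ↔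
      γ ∈ CongruenceSubgroup.Gamma0 M := by
  rw [embHom_jTop, smul_jdLL_eq_iff, smul_jd_eq_iff]

/-- **Primitive element**: `F_M = ℚ̄(j, j_M)`. -/
theorem adjoin_jBar_jTop (M : ℕ) [NeZero M] :
    IntermediateField.adjoin Qb ({jBar M, jTop M} : Set ↥(modularFunctionFieldBar M)) = ⊤ := by
  set P : IntermediateField Qb ↥(modularFunctionFieldBar M) :=
    IntermediateField.adjoin Qb ({jBar M, jTop M} : Set ↥(modularFunctionFieldBar M)) with hP
  have hjP : jBar M ∈ P := IntermediateField.subset_adjoin Qb _ (Set.mem_insert _ _)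
  have hjTP : jTop M ∈ P :=
    IntermediateField.subset_adjoin Qb _ (Set.mem_insert_of_mem _ rfl)
  have hj : embHom M M dvd_rfl (jBar M) = jLL M := embHom_jq M M dvd_rfl (jBar M) rfl
  have hH' := Fermat.Agent.Kronecker.mem_Gamma0_iff_smul_embHom M M dvd_rfl
  obtain ⟨-, hrank⟩ := Fermat.Agent.Kronecker.finrank_hom_mul_index_eq_index (Γ := SL(2, ℤ))
    ((embHom M M dvd_rfl).comp P.val) (embHom M M dvd_rfl) P.val (fun x => rfl)
    (⟨jBar M, hjP⟩ : ↥P) (exists_finiteIndex_fixing M)
    (fun g => by
      show g • embHom M M dvd_rfl (jBar M) = embHom M M dvd_rfl (jBar M)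
      rw [hj]; exact smul_jLL M g)
    (fun x hx => by
      show x ∈ IntermediateField.adjoin Qb {embHom M M dvd_rfl (jBar M)}
      rw [hj]; exact Fermat.Agent.S24Inv.mem_adjoin_jLL_of_invariant' M x hx)
    (CongruenceSubgroup.Gamma0 M) (CongruenceSubgroup.Gamma0 M)
    (fun g => by
      constructor
      · intro hg x
        exact (hH' g).mp hg (x : ↥(modularFunctionFieldBar M))
      · intro hg
        exact (smul_embHom_jTop_iff M g).mp (hg ⟨jTop M, hjTP⟩))
    hH'
  have hpos : 0 < (CongruenceSubgroup.Gamma0 M).index :=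
    Nat.pos_of_ne_zero Subgroup.FiniteIndex.index_ne_zero
  have h1 : (letI := P.val.toRingHom.toAlgebra;
      Module.finrank ↥P ↥(modularFunctionFieldBar M)) = 1 := by
    have := Nat.eq_of_mul_eq_mul_right hpos (hrank.trans (one_mul _).symm)
    exact this
  exact IntermediateField.finrank_eq_one_iff_eq_top.mp h1

section Span

variable {A B C : ℕ} [NeZero A] [NeZero B] [NeZero C]

theorem inclF_jBar (c : ℕ) [NeZero c] (hA : A * c = B) : inclF c hA (jBar A) = jBar B := by
  apply Subtype.ext
  rw [coe_inclF, coe_jBar, coe_jBar]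

theorem scaleF_jTop (d : ℕ) [NeZero d] (hC : C * d = B) : scaleF d hC (jTop C) = jTop B := by
  apply Subtype.ext
  rw [coe_scaleF, coe_jTop, coe_jTop, coeffEmb_qExpand_rat, coeffEmb_qExpand_rat,
    qExpand_qExpand]
  have h : d * C = B := by rw [mul_comm]; exact hC
  subst h
  rfl

/-- **Spanning**: `F_B` is spanned over `F_A` by the image of `F_C` under `f(q) ↦ f(q^d)`. -/
theorem span_scaleF (c d : ℕ) [NeZero c] [NeZero d] (hA : A * c = B) (hC : C * d = B) :
    letI := algebraAlong (inclF c hA : ↥(modularFunctionFieldBar A) →ₐ[Qb] _)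
    ⊤ ≤ Submodule.span ↥(modularFunctionFieldBar A)
      (Set.range (scaleF d hC : ↥(modularFunctionFieldBar C) →ₐ[Qb] _)) := by
  letI := algebraAlong (inclF c hA : ↥(modularFunctionFieldBar A) →ₐ[Qb] _)
  haveI := isScalarTower_along (inclF c hA : ↥(modularFunctionFieldBar A) →ₐ[Qb] _)
  haveI : Module.Finite ↥(modularFunctionFieldBar A) ↥(modularFunctionFieldBar B) :=
    finiteAlong_bar _
  set b' : ↥(modularFunctionFieldBar C) →ₐ[Qb] ↥(modularFunctionFieldBar B) := scaleF d hC
    with hb'
  set T : IntermediateField ↥(modularFunctionFieldBar A) ↥(modularFunctionFieldBar B) :=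
    IntermediateField.adjoin ↥(modularFunctionFieldBar A) (Set.range b') with hT
  have hall : ∀ x : ↥(modularFunctionFieldBar B), x ∈ T := by
    intro x
    have hx : x ∈ IntermediateField.adjoin Qb
        ({jBar B, jTop B} : Set ↥(modularFunctionFieldBar B)) := by
      rw [adjoin_jBar_jTop B]
      trivial
    induction hx using IntermediateField.adjoin_induction with
    | mem y hy =>
      rcases hy with rfl | hy
      · rw [← inclF_jBar c hA]
        exact T.algebraMap_mem (jBar A)
      · rw [Set.mem_singleton_iff] at hy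
        subst hy
        rw [← scaleF_jTop d hC]
        exact IntermediateField.subset_adjoin _ _ ⟨jTop C, rfl⟩
    | algebraMap k =>
      rw [IsScalarTower.algebraMap_apply Qb ↥(modularFunctionFieldBar A)
        ↥(modularFunctionFieldBar B)]
      exact T.algebraMap_mem _
    | add y z _ _ hy hz => exact T.add_mem hy hz
    | inv y _ hy => exact T.inv_mem hy
    | mul y z _ _ hy hz => exact T.mul_mem hy hz
  have hTs : T.toSubalgebra = Algebra.adjoin ↥(modularFunctionFieldBar A) (Set.range b') :=
    IntermediateField.adjoin_toSubalgebra _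
  have hcl : (Submonoid.closure (Set.range b') : Set ↥(modularFunctionFieldBar B))
      = Set.range b' := by
    have h1 : Set.range b' = ((MonoidHom.mrange (b' : ↥(modularFunctionFieldBar C) →*
        ↥(modularFunctionFieldBar B)) : Submonoid _) : Set _) := by
      ext y
      simp
    rw [h1, Submonoid.closure_eq]
  intro x _
  have hxT : x ∈ T.toSubalgebra := hall x
  rw [hTs, ← Subalgebra.mem_toSubmodule, Algebra.adjoin_eq_span, hcl] at hxT
  exact hxT

end Span

end Fermat.Agent.EDescComm
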