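/-
Cluster E' (Mazur), seat DESC-COMM (helper84).
Part 8: **the Hecke operators of `J₀(N)` commute** (`ModularCurve.HeckeOperatorsCommuteBar N`).

`T_r T_s = T_s T_r` for all primes `r`, `s` (dividing the level or not): both are the
correspondence `(F_N ⊆ F_{N r s})_* ∘ (f(q) ↦ f(q^{r s}))^*`, by base change in the squares
`F_N, F_{N r}, F_{N s}, F_{N r s}`.
-/
import Mathlib
import Fermat.Prelude.Def_ModularCurve_HeckeModule
import Fermat.Agent.E.Desc.Comm.Prim

set_option autoImplicit false
set_option linter.unusedSectionVars false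
set_option linter.unusedVariables false
set_option linter.style.haveILetI false
set_option synthInstance.maxHeartbeats 400000

noncomputable section

open AlgebraicCurve ModularCurve

namespace Fermat.Agent.EDescComm

local notation "Qb" => AlgebraicClosure ℚ

theorem qExpand_congr_level {a b : ℕ} [NeZero a] [NeZero b] (h : a = b)
    (x : LaurentSeries Qb) : qExpand Qb a x = qExpand Qb b x := by
  subst h
  rfl

section Square

variable (N r s : ℕ) [NeZero N] [NeZero r] [NeZero s]

/-- the data of the two base change squares `F_N, F_{N r}, F_{N s}, F_{N r s}`. -/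
theorem commData_incl_scale (hr : r.Prime) (hs : s.Prime) (hrs : r ≠ s) :
    CommData (K := Qb)
      (inclF r rfl : ↥(modularFunctionFieldBar N) →ₐ[Qb] ↥(modularFunctionFieldBar (N * r)))
      (scaleF r rfl : ↥(modularFunctionFieldBar N) →ₐ[Qb] ↥(modularFunctionFieldBar (N * r)))
      (inclF s rfl : ↥(modularFunctionFieldBar N) →ₐ[Qb] ↥(modularFunctionFieldBar (N * s)))
      (scaleF s rfl : ↥(modularFunctionFieldBar N) →ₐ[Qb] ↥(modularFunctionFieldBar (N * s)))
      (inclF s rfl : ↥(modularFunctionFieldBar (N * r)) →ₐ[Qb]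
        ↥(modularFunctionFieldBar (N * r * s)))
      (scaleF s rfl : ↥(modularFunctionFieldBar (N * r)) →ₐ[Qb]
        ↥(modularFunctionFieldBar (N * r * s)))
      (inclF r (Nat.mul_right_comm N s r) : ↥(modularFunctionFieldBar (N * s)) →ₐ[Qb]
        ↥(modularFunctionFieldBar (N * r * s)))
      (scaleF r (Nat.mul_right_comm N s r) : ↥(modularFunctionFieldBar (N * s)) →ₐ[Qb]
        ↥(modularFunctionFieldBar (N * r * s))) := by
  have sq₁ : IsBCSquare (K := Qb)
      (inclF s rfl : ↥(modularFunctionFieldBar N) →ₐ[Qb] ↥(modularFunctionFieldBar (N * s)))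
      (scaleF r rfl : ↥(modularFunctionFieldBar N) →ₐ[Qb] ↥(modularFunctionFieldBar (N * r)))
      (inclF s rfl : ↥(modularFunctionFieldBar (N * r)) →ₐ[Qb]
        ↥(modularFunctionFieldBar (N * r * s)))
      (scaleF r (Nat.mul_right_comm N s r) : ↥(modularFunctionFieldBar (N * s)) →ₐ[Qb]
        ↥(modularFunctionFieldBar (N * r * s))) :=
    { comm := by
        apply AlgHom.ext
        intro x
        apply Subtype.ext
        show ((inclF s rfl (scaleF r rfl x) : ↥(modularFunctionFieldBar (N * r * s))) :
            LaurentSeries Qb) = ((scaleF r (Nat.mul_right_comm N s r) (inclF s rfl x) :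
              ↥(modularFunctionFieldBar (N * r * s))) : LaurentSeries Qb)
        rw [coe_inclF, coe_scaleF, coe_scaleF, coe_inclF]
      finite := finiteAlong_bar _
      finrank_eq := finrankAlong_inclF_eq hr hs hrs rfl rfl rfl
      span := span_scaleF s r rfl (Nat.mul_right_comm N s r) }
  have sq₂ : IsBCSquare (K := Qb)
      (inclF r rfl : ↥(modularFunctionFieldBar N) →ₐ[Qb] ↥(modularFunctionFieldBar (N * r)))
      (scaleF s rfl : ↥(modularFunctionFieldBar N) →ₐ[Qb] ↥(modularFunctionFieldBar (N * s)))
      (inclF r (Nat.mul_right_comm N s r) : ↥(modularFunctionFieldBar (N * s)) →ₐ[Qb]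
        ↥(modularFunctionFieldBar (N * r * s)))
      (scaleF s rfl : ↥(modularFunctionFieldBar (N * r)) →ₐ[Qb]
        ↥(modularFunctionFieldBar (N * r * s))) :=
    { comm := by
        apply AlgHom.ext
        intro x
        apply Subtype.ext
        show ((inclF r (Nat.mul_right_comm N s r) (scaleF s rfl x) :
            ↥(modularFunctionFieldBar (N * r * s))) : LaurentSeries Qb) =
          ((scaleF s rfl (inclF r rfl x) : ↥(modularFunctionFieldBar (N * r * s))) :
            LaurentSeries Qb)
        rw [coe_inclF, coe_scaleF, coe_scaleF, coe_inclF]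
      finite := finiteAlong_bar _
      finrank_eq := finrankAlong_inclF_eq hs hr hrs.symm rfl rfl (Nat.mul_right_comm N s r)
      span := span_scaleF r s (Nat.mul_right_comm N s r) rfl }
  exact
    { sq₁ := sq₁
      sq₂ := sq₂
      incl := by
        apply AlgHom.ext
        intro x
        apply Subtype.ext
        show ((inclF s rfl (inclF r rfl x) : ↥(modularFunctionFieldBar (N * r * s))) :
            LaurentSeries Qb) = ((inclF r (Nat.mul_right_comm N s r) (inclF s rfl x) :
              ↥(modularFunctionFieldBar (N * r * s))) : LaurentSeries Qb)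
        rw [coe_inclF, coe_inclF, coe_inclF, coe_inclF]
      scale := by
        apply AlgHom.ext
        intro x
        apply Subtype.ext
        show ((scaleF r (Nat.mul_right_comm N s r) (scaleF s rfl x) :
            ↥(modularFunctionFieldBar (N * r * s))) : LaurentSeries Qb) =
          ((scaleF s rfl (scaleF r rfl x) : ↥(modularFunctionFieldBar (N * r * s))) :
            LaurentSeries Qb)
        rw [coe_scaleF, coe_scaleF, coe_scaleF, coe_scaleF, qExpand_qExpand, qExpand_qExpand]
        exact qExpand_congr_level (mul_comm r s) _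
      finAs := finiteAlong_bar _
      finAr := finiteAlong_bar _
      normαs := normFormulaAlong_bar _ _
      normαr := normFormulaAlong_bar _ _
      normAs := normFormulaAlong_bar _ _
      normAr := normFormulaAlong_bar _ _
      degE := deg_one_bar N
      degLr := deg_one_bar (N * r)
      degLs := deg_one_bar (N * s)
      degM := deg_one_bar (N * r * s)
      approxLr := weakApprox_bar (N * r)
      approxLs := weakApprox_bar (N * s) }

end Square

/-- the Hecke operator as a correspondence. -/
theorem heckeOperatorAlong_eq_correspondence (N ℓ : ℕ) [NeZero N] [NeZero ℓ] :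
    heckeOperatorAlong Qb N ℓ =
      Pic0.correspondence (heckeBetaBar Qb N ℓ) (heckeAlphaBar Qb N ℓ)
        (isIntegral_bar _) (isIntegral_bar _) (fundamentalIdentityAlong_bar _ _)
        (finiteAlong_bar _) (normFormulaAlong_bar _ _) :=
  heckeOperatorAlong_eq (L := Qb) (N := N) (ℓ := ℓ) (isIntegral_bar _) (isIntegral_bar _)
    (fundamentalIdentityAlong_bar _ _) (finiteAlong_bar _) (normFormulaAlong_bar _ _)

/-- `T_r T_s = T_s T_r` on `J₀(N)`, for distinct primes. -/
theorem heckeOperatorAlong_comm (N r s : ℕ) [NeZero N] [NeZero r] [NeZero s]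
    (hr : r.Prime) (hs : s.Prime) (hrs : r ≠ s) (x : JZero N) :
    heckeOperatorAlong Qb N r (heckeOperatorAlong Qb N s x) =
      heckeOperatorAlong Qb N s (heckeOperatorAlong Qb N r x) := by
  rw [heckeOperatorAlong_eq_correspondence N r, heckeOperatorAlong_eq_correspondence N s]
  have h := commData_incl_scale N r s hr hs hrs
  rw [← heckeAlphaBar_eq_inclF N r, ← heckeBetaBar_eq_scaleF N r, ← heckeAlphaBar_eq_inclF N s,
    ← heckeBetaBar_eq_scaleF N s] at h
  exact h.pic0_correspondence_comm (isIntegral_bar _) (isIntegral_bar _) (isIntegral_bar _)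
    (isIntegral_bar _) (isIntegral_bar _) (isIntegral_bar _) (isIntegral_bar _)
    (isIntegral_bar _) _ _ _ _ _ _ x

/-- **The Hecke operators of `J₀(N)` commute.** -/
theorem heckeOperatorsCommuteBar (N : ℕ) [NeZero N] : HeckeOperatorsCommuteBar N := by
  intro ℓ ℓ'
  by_cases h : ℓ = ℓ'
  · rw [h]
  · haveI : NeZero (ℓ : ℕ) := ⟨ℓ.2.ne_zero⟩
    haveI : NeZero (ℓ' : ℕ) := ⟨ℓ'.2.ne_zero⟩
    apply LinearMap.ext
    intro x
    rw [Module.End.mul_apply, Module.End.mul_apply, heckeOperatorBar_apply,
      heckeOperatorBar_apply, heckeOperatorBar_apply, heckeOperatorBar_apply]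
    exact heckeOperatorAlong_comm N ℓ ℓ' ℓ.2 ℓ'.2 (fun hc => h (Subtype.ext hc)) x

end Fermat.Agent.EDescComm
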