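/-
Cluster E' (Mazur), seat DESC-COMM (helper84).
Part 2 (abstract): base change of the norm in a commutative square of fields
```
      L₁ --b'--> M
      ^          ^
      a          a'
      E  --b-->  L₂
```
with `[M : L₂] = [L₁ : E]` and `M` spanned over `L₂` by the image of `L₁`:
  `N_{M/L₂} (b' g) = b (N_{L₁/E} g)`.
-/
import Mathlib
import Fermat.Prelude.Def_AlgebraicCurve_Correspondence

set_option autoImplicit false
set_option linter.unusedSectionVars false
set_option linter.unusedVariables false
set_option linter.style.haveILetI false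

noncomputable section

open AlgebraicCurve

namespace Fermat.Agent.EDescComm

variable {K E L₁ L₂ M : Type*} [Field K] [Field E] [Field L₁] [Field L₂] [Field M]
  [Algebra K E] [Algebra K L₁] [Algebra K L₂] [Algebra K M]

/-- The norm of the finite extension given by an embedding `ψ`. -/
def normAlg (ψ : E →ₐ[K] L₁) : L₁ →* E :=
  letI := algebraAlong ψ
  Algebra.norm E

/-- the data of a "cartesian" square of fields. -/
structure IsBCSquare (a : E →ₐ[K] L₁) (b : E →ₐ[K] L₂) (a' : L₂ →ₐ[K] M) (b' : L₁ →ₐ[K] M) :
    Prop where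
  comm : a'.comp b = b'.comp a
  finite : FiniteAlong K a
  finrank_eq : finrankAlong K a' = finrankAlong K a
  span : letI := algebraAlong a'; ⊤ ≤ Submodule.span L₂ (Set.range b')

variable {a : E →ₐ[K] L₁} {b : E →ₐ[K] L₂} {a' : L₂ →ₐ[K] M} {b' : L₁ →ₐ[K] M}

theorem IsBCSquare.comm_apply (h : IsBCSquare a b a' b') (x : E) : a' (b x) = b' (a x) :=
  congrArg (fun f : E →ₐ[K] M => f x) h.comm

/-- the image of a basis of `L₁ / E` spans `M` over `L₂`. -/
theorem IsBCSquare.span_image_basis (h : IsBCSquare a b a' b') {ι : Type*} [Fintype ι]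
    (B : letI := algebraAlong a; Module.Basis ι E L₁) :
    letI := algebraAlong a'
    ⊤ ≤ Submodule.span L₂ (Set.range fun i => b' (B i)) := by
  letI := algebraAlong a
  letI := algebraAlong a'
  refine h.span.trans ?_
  rw [Submodule.span_le]
  rintro _ ⟨l, rfl⟩
  have hl : l = ∑ i, B.repr l i • B i := (B.sum_repr l).symm
  have h1 : b' l = ∑ i, (b (B.repr l i)) • b' (B i) := by
    conv_lhs => rw [hl]
    rw [map_sum]
    refine Finset.sum_congr rfl fun i _ => ?_
    rw [Algebra.smul_def, Algebra.smul_def, map_mul]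
    congr 1
    exact (h.comm_apply _).symm
  rw [h1]
  exact Submodule.sum_mem _ fun i _ =>
    Submodule.smul_mem _ _ (Submodule.subset_span ⟨i, rfl⟩)

/-- **Base change of the norm.** -/
theorem IsBCSquare.norm_eq (h : IsBCSquare a b a' b') (g : L₁) :
    normAlg a' (b' g) = b (normAlg a g) := by
  letI := algebraAlong a
  letI := algebraAlong a'
  haveI : Module.Finite E L₁ := h.finite
  set n := Module.finrank E L₁ with hn
  let B : Module.Basis (Fin n) E L₁ := Module.finBasis E L₁
  have hcard : Fintype.card (Fin n) = Module.finrank L₂ M := by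
    rw [Fintype.card_fin]
    exact h.finrank_eq.symm
  let B' : Module.Basis (Fin n) L₂ M :=
    basisOfTopLeSpanOfCardEqFinrank (fun i => b' (B i)) (h.span_image_basis B) hcard
  have hB' : ∀ i, B' i = b' (B i) := fun i => by
    simp only [B', coe_basisOfTopLeSpanOfCardEqFinrank]
  show Algebra.norm L₂ (b' g) = b (Algebra.norm E g)
  rw [Algebra.norm_eq_matrix_det B', Algebra.norm_eq_matrix_det B, AlgHom.map_det]
  congr 1
  ext i j
  rw [Algebra.leftMulMatrix_eq_repr_mul, AlgHom.mapMatrix_apply, Matrix.map_apply,
    Algebra.leftMulMatrix_eq_repr_mul, hB']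
  have h1 : b' g * b' (B j) = ∑ k, (b (B.repr (g * B j) k)) • B' k := by
    rw [← map_mul]
    conv_lhs => rw [← B.sum_repr (g * B j)]
    rw [map_sum]
    refine Finset.sum_congr rfl fun k _ => ?_
    rw [Algebra.smul_def, Algebra.smul_def, map_mul, hB']
    congr 1
    exact (h.comm_apply _).symm
  rw [h1, B'.repr_sum_self]

end Fermat.Agent.EDescComm
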